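import Mathlib
import Fermat.Agent.S52.T3.HitRoot.Newton
import Fermat.Agent.S52.T3.HitRoot.Det
import Fermat.Agent.S52.T3.HitRoot.Local
import Fermat.Agent.S52.T3.HitRoot.Bound

/-!
# PROJECT W (S52), T3: a p-adic determinant method for roots (Hilbert irreducibility for roots)

Mathlib only.  `Gp : ℤ[X][X]` is a monic polynomial in `y` over `ℤ[u]`; for a ring hom
`φ : ℤ[X] →+* R` and `y : R` the value `G_φ(y)` is `Gp.eval₂ φ y`.

**Theorem `hitRoot_monic`.**  Assume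
* (H1) `G` has no root in `ℚ[u]`;
* (H2) for a prime `p` and `u0 : ℤ` every root of `G(u0, ·)` in `ZMod p` is simple.
Then for every `e` and `k0` there is `k ≥ k0` such that, outside any given set `Z` of at most `e`
natural numbers, there is `s` for which `G(u0 + p ^ k s, ·)` has no integer root.

Proof: assume the contrary with `X = p D' + e + 1` values of `s` (`D' = D + d D`, `D` the degree in
`u`, `d` the degree in `y`).  By the pigeonhole principle `> D'` of the integer roots `y_s` have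
the same residue `ā`, a simple root of `G(u0, ·)` mod `p`; by Newton–Hensel in `ℤ[s']` they are
congruent modulo `p ^ ((k-1) m)` (`m = D + 1`) to the values of one polynomial of degree `< m`
(`exists_local_coeffs`).  So the interpolation determinants are divisible by `p ^ ((k-1) m)`
(`detMat_dvd`), while they are bounded by `C₁ p ^ (k D)` (`detMat_abs_le` and the Cauchy bound):
for `k` large they vanish, hence `y_s = Q(s)` with `Q ∈ ℚ[s]` of degree `≤ D`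
(`exists_poly_of_det_zero`), and `G(u0 + p ^ k s, Q(s))` has degree `≤ D'` and `> D'` roots: it is
zero, and `Q((u - u0) / p ^ k)` is a root of `G` in `ℚ[u]`.
-/

namespace Fermat.Agent.S52.T3.HitRoot

open Polynomial

/-- The degree in `u` of `Gp`. -/
noncomputable def coeffDeg (Gp : ℤ[X][X]) : ℕ := Gp.support.sup fun j => (Gp.coeff j).natDegree

theorem natDegree_coeff_le (Gp : ℤ[X][X]) (j : ℕ) : (Gp.coeff j).natDegree ≤ coeffDeg Gp := by
  by_cases hj : j ∈ Gp.support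
  · exact Finset.le_sup (f := fun j => (Gp.coeff j).natDegree) hj
  · rw [notMem_support_iff.1 hj, natDegree_zero]; exact Nat.zero_le _

/-- Bound for the integer roots in the family. -/
theorem family_root_abs_le (Gp : ℤ[X][X]) (hG : Gp.Monic) (D : ℕ)
    (hD : ∀ j, (Gp.coeff j).natDegree ≤ D) (u V y : ℤ) (hV : 1 ≤ V) (hu : |u| ≤ V)
    (hy : Gp.eval₂ (evalRingHom u) y = 0) :
    |y| ≤ (∑ j ∈ Finset.range Gp.natDegree, ∑ i ∈ Finset.range (D + 1),
      |(Gp.coeff j).coeff i|) * V ^ D := by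
  have hf : (Gp.map (evalRingHom u)).Monic := hG.map _
  have hdeg : (Gp.map (evalRingHom u)).natDegree = Gp.natDegree := hG.natDegree_map _
  have h1 := int_root_abs_le (Gp.map (evalRingHom u)) hf y (by rw [eval_map]; exact hy)
  rw [hdeg] at h1
  refine le_trans h1 ?_
  rw [Finset.sum_mul]
  refine Finset.sum_le_sum (fun j _ => ?_)
  rw [coeff_map, coe_evalRingHom]
  exact eval_abs_le _ D (hD j) u V hV hu

/-- Degree count for `G(φ(u), Q)`. -/
theorem natDegree_eval₂_le (Gp : ℤ[X][X]) (D : ℕ) (hD : ∀ j, (Gp.coeff j).natDegree ≤ D)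
    (φ : ℤ[X] →+* ℚ[X]) (hφ : ∀ q : ℤ[X], (φ q).natDegree ≤ q.natDegree) (Q : ℚ[X])
    (hQ : Q.natDegree ≤ D) :
    (Gp.eval₂ φ Q).natDegree ≤ D + Gp.natDegree * D := by
  rw [eval₂_eq_sum_range]
  refine natDegree_sum_le_of_forall_le _ _ (fun i hi => ?_)
  refine le_trans natDegree_mul_le (add_le_add ((hφ _).trans (hD i)) ?_)
  refine le_trans natDegree_pow_le ?_
  exact Nat.mul_le_mul (Nat.lt_succ_iff.1 (Finset.mem_range.1 hi)) hQ

/-- **The p-adic determinant method for roots.** -/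
theorem hitRoot_monic (Gp : ℤ[X][X]) (hG : Gp.Monic)
    (hroot : ¬ ∃ Y : ℚ[X], Gp.eval₂ (mapRingHom (Int.castRingHom ℚ)) Y = 0)
    (p : ℕ) [Fact p.Prime] (u0 : ℤ)
    (hsimple : ∀ a : ZMod p,
      Gp.eval₂ ((Int.castRingHom (ZMod p)).comp (evalRingHom u0)) a = 0 →
      (derivative Gp).eval₂ ((Int.castRingHom (ZMod p)).comp (evalRingHom u0)) a ≠ 0)
    (e : ℕ) :
    ∀ k0 : ℕ, ∃ k, k0 ≤ k ∧ ∀ Z : Finset ℕ, Z.card ≤ e →
      ∃ s : ℕ, s ∉ Z ∧ ∀ y : ℤ, Gp.eval₂ (evalRingHom (u0 + (p : ℤ) ^ k * (s : ℤ))) y ≠ 0 := by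
  classical
  intro k0
  have hp : p.Prime := Fact.out
  have hp2 : 2 ≤ p := hp.two_le
  obtain ⟨d, hd⟩ : ∃ d, d = Gp.natDegree := ⟨_, rfl⟩
  obtain ⟨D, hDdef⟩ : ∃ D, D = coeffDeg Gp := ⟨_, rfl⟩
  have hD : ∀ j, (Gp.coeff j).natDegree ≤ D := fun j => hDdef ▸ natDegree_coeff_le Gp j
  obtain ⟨m, hm⟩ : ∃ m, m = D + 1 := ⟨_, rfl⟩
  obtain ⟨D', hD'⟩ : ∃ D', D' = D + d * D := ⟨_, rfl⟩
  obtain ⟨Xn, hXn⟩ : ∃ Xn, Xn = p * D' + e + 1 := ⟨_, rfl⟩
  have hXn1 : (1 : ℤ) ≤ (Xn : ℤ) := by exact_mod_cast (by omega : 1 ≤ Xn)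
  obtain ⟨U, hU⟩ : ∃ U : ℤ, U = |u0| + (Xn : ℤ) := ⟨_, rfl⟩
  have hU1 : 1 ≤ U := by
    have h1 : (0 : ℤ) ≤ |u0| := abs_nonneg _
    linarith
  obtain ⟨C0, hC0⟩ : ∃ C0 : ℤ, C0 = (∑ j ∈ Finset.range d, ∑ i ∈ Finset.range (D + 1),
      |(Gp.coeff j).coeff i|) * U ^ D := ⟨_, rfl⟩
  obtain ⟨C1, hC1⟩ : ∃ C1 : ℤ,
      C1 = ((m : ℤ) + 1) * C0 * ((m.factorial : ℤ) * ((Xn : ℤ) ^ m) ^ m) := ⟨_, rfl⟩
  obtain ⟨k', hk'⟩ : ∃ k', k' = k0 + 1 + C1.toNat := ⟨_, rfl⟩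
  obtain ⟨k, hk⟩ : ∃ k, k = D + 1 + k' := ⟨_, rfl⟩
  refine ⟨k, by omega, fun Z hZ => ?_⟩
  by_contra hcon
  push Not at hcon
  have hex : ∀ s : ℕ, ∃ y : ℤ, s ∉ Z →
      Gp.eval₂ (evalRingHom (u0 + (p : ℤ) ^ k * (s : ℤ))) y = 0 := by
    intro s
    by_cases hs : s ∈ Z
    · exact ⟨0, fun h => absurd hs h⟩
    · obtain ⟨y, hy⟩ := hcon s hs
      exact ⟨y, fun _ => hy⟩
  choose y hy using hex
  have hS0card : p * D' < ((Finset.range Xn) \ Z).card := by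
    have h1 := Finset.le_card_sdiff Z (Finset.range Xn)
    rw [Finset.card_range] at h1
    omega
  obtain ⟨abar, -, hab⟩ := Finset.exists_lt_card_fiber_of_mul_lt_card_of_maps_to
    (s := (Finset.range Xn) \ Z) (t := (Finset.univ : Finset (ZMod p)))
    (f := fun s => ((y s : ℤ) : ZMod p)) (n := D')
    (fun _ _ => Finset.mem_univ _) (by rw [Finset.card_univ, ZMod.card]; exact hS0card)
  obtain ⟨S, hS⟩ : ∃ S : Finset ℕ,
      S = ((Finset.range Xn) \ Z).filter (fun s => ((y s : ℤ) : ZMod p) = abar) := ⟨_, rfl⟩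
  rw [← hS] at hab
  have hSmem : ∀ s ∈ S, s < Xn ∧ s ∉ Z ∧ ((y s : ℤ) : ZMod p) = abar := by
    intro s hs
    rw [hS, Finset.mem_filter, Finset.mem_sdiff, Finset.mem_range] at hs
    exact ⟨hs.1.1, hs.1.2, hs.2⟩
  have hk2 : 2 ≤ k := by omega
  have hpdvd : ∀ s : ℤ, (p : ℤ) ∣ (u0 + (p : ℤ) ^ k * s) - u0 := by
    intro s
    rw [add_sub_cancel_left]
    exact Dvd.dvd.mul_right (dvd_pow_self _ (by omega)) _
  -- `abar` is a root modulo `p`
  have hroot0 : Gp.eval₂ ((Int.castRingHom (ZMod p)).comp (evalRingHom u0)) abar = 0 := by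
    obtain ⟨s0, hs0⟩ : S.Nonempty := Finset.card_pos.1 (lt_of_le_of_lt (Nat.zero_le _) hab)
    obtain ⟨-, hs0Z, hs0a⟩ := hSmem s0 hs0
    have h1 := congrArg (Int.castRingHom (ZMod p)) (hy s0 hs0Z)
    rw [hom_eval₂, map_zero, red_comp_eval_congr p _ u0 (hpdvd _), eq_intCast, hs0a] at h1
    exact h1
  have hder0 := hsimple abar hroot0
  obtain ⟨c, hc⟩ := exists_local_coeffs Gp p u0 abar hroot0 hder0 k m hk2 (by omega)
  -- archimedean bound
  have hpk1 : (1 : ℤ) ≤ (p : ℤ) ^ k := one_le_pow₀ (by exact_mod_cast hp.one_le)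
  have hpk0 : (0 : ℤ) < (p : ℤ) ^ k := lt_of_lt_of_le one_pos hpk1
  have hbound : ∀ s ∈ S, |y s| ≤ C0 * ((p : ℤ) ^ k) ^ D := by
    intro s hs
    obtain ⟨hsX, hsZ, -⟩ := hSmem s hs
    have hs0 : (0 : ℤ) ≤ (s : ℤ) := Int.natCast_nonneg s
    have hsX' : (s : ℤ) ≤ (Xn : ℤ) := by exact_mod_cast hsX.le
    have hV : |u0 + (p : ℤ) ^ k * (s : ℤ)| ≤ U * (p : ℤ) ^ k := by
      have h1 : |u0 + (p : ℤ) ^ k * (s : ℤ)| ≤ |u0| + |(p : ℤ) ^ k * (s : ℤ)| := abs_add_le _ _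
      have h2 : |(p : ℤ) ^ k * (s : ℤ)| = (p : ℤ) ^ k * (s : ℤ) :=
        abs_of_nonneg (mul_nonneg hpk0.le hs0)
      have h3 : |u0| ≤ |u0| * (p : ℤ) ^ k := le_mul_of_one_le_right (abs_nonneg _) hpk1
      have h4 : (p : ℤ) ^ k * (s : ℤ) ≤ (Xn : ℤ) * (p : ℤ) ^ k := by
        rw [mul_comm]; exact mul_le_mul_of_nonneg_right hsX' hpk0.le
      rw [hU, add_mul]
      linarith
    have h5 := family_root_abs_le Gp hG D hD _ (U * (p : ℤ) ^ k) (y s)
      (one_le_mul_of_one_le_of_one_le hU1 hpk1) hV (hy s hsZ)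
    rw [mul_pow, ← mul_assoc, ← hd, ← hC0] at h5
    exact h5
  -- `p ^ ((k-1) m)` beats the bound
  have hkm : (k - 1) * m = k * D + k' := by
    have h1 : k - 1 = D + k' := by omega
    rw [h1, hm, hk]; ring
  have hC1lt : C1 < (p : ℤ) ^ k' := by
    have h1 : C1 ≤ (C1.toNat : ℤ) := Int.self_le_toNat C1
    have h2 : C1.toNat < k' := by omega
    have h3 : k' < 2 ^ k' := Nat.lt_two_pow_self
    have h4 : 2 ^ k' ≤ p ^ k' := Nat.pow_le_pow_left hp2 k'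
    have h5 : (C1.toNat : ℤ) < ((p ^ k' : ℕ) : ℤ) := by
      exact_mod_cast lt_of_lt_of_le (h2.trans h3) h4
    push_cast at h5
    linarith
  have hsmall : C1 * ((p : ℤ) ^ k) ^ D < (p : ℤ) ^ ((k - 1) * m) := by
    rw [hkm, pow_add, pow_mul, mul_comm (((p : ℤ) ^ k) ^ D)]
    exact mul_lt_mul_of_pos_right hC1lt (pow_pos hpk0 D)
  -- the determinants vanish
  have hdet : ∀ σ : Fin (m + 1) → ℕ, Function.Injective σ → (∀ i, σ i ∈ S) →
      (detMat m (fun i => (σ i : ℤ)) (fun i => y (σ i))).det = 0 := by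
    intro σ _ hσS
    have h1 : ((p ^ ((k - 1) * m) : ℕ) : ℤ)
        ∣ (detMat m (fun i => (σ i : ℤ)) (fun i => y (σ i))).det := by
      refine detMat_dvd m (p ^ ((k - 1) * m)) _ _ c (fun i => ?_)
      obtain ⟨-, hsZ, hsa⟩ := hSmem (σ i) (hσS i)
      have h2 := hc (σ i) (y (σ i)) (hy (σ i) hsZ) hsa
      push_cast
      exact h2
    have h2 : |(detMat m (fun i => (σ i : ℤ)) (fun i => y (σ i))).det|
        ≤ C1 * ((p : ℤ) ^ k) ^ D := by
      have h3 := detMat_abs_le m (Xn : ℤ) (C0 * ((p : ℤ) ^ k) ^ D) (fun i => (σ i : ℤ))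
        (fun i => y (σ i)) hXn1
        (fun i => by
          rw [abs_of_nonneg (Int.natCast_nonneg _)]
          exact_mod_cast (hSmem _ (hσS i)).1.le)
        (fun i => hbound _ (hσS i))
      refine le_trans h3 (le_of_eq ?_)
      rw [hC1]; ring
    refine Int.eq_zero_of_abs_lt_dvd h1 ?_
    push_cast
    exact lt_of_le_of_lt h2 hsmall
  -- the interpolating polynomial
  have hmS : m ≤ S.card := by
    have h1 : D ≤ D' := by rw [hD']; exact Nat.le_add_right _ _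
    omega
  obtain ⟨Q, hQdeg, hQS⟩ := exists_poly_of_det_zero m S hmS y hdet
  have hQD : Q.natDegree ≤ D := by
    by_cases hQ0 : Q = 0
    · rw [hQ0, natDegree_zero]; exact Nat.zero_le _
    · have h1 := (natDegree_lt_iff_degree_lt hQ0).2 hQdeg
      omega
  -- the polynomial identity
  have hpkQ : ((p : ℚ) ^ k) ≠ 0 := pow_ne_zero _ (Nat.cast_ne_zero.2 hp.ne_zero)
  obtain ⟨lin, hlin⟩ : ∃ lin : ℚ[X], lin = C (u0 : ℚ) + C ((p : ℚ) ^ k) * X := ⟨_, rfl⟩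
  obtain ⟨φQ, hφQ⟩ : ∃ φQ : ℤ[X] →+* ℚ[X],
      φQ = (compRingHom lin).comp (mapRingHom (Int.castRingHom ℚ)) := ⟨_, rfl⟩
  have hφdeg : ∀ q : ℤ[X], (φQ q).natDegree ≤ q.natDegree := by
    intro q
    have h1 : lin.natDegree ≤ 1 := by
      rw [hlin]
      refine le_trans (natDegree_add_le _ _) (max_le ?_ ((natDegree_C_mul_le _ _).trans natDegree_X_le))
      rw [natDegree_C]; exact Nat.zero_le _
    have h2 : φQ q = (q.map (Int.castRingHom ℚ)).comp lin := by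
      rw [hφQ]; rfl
    rw [h2]
    refine le_trans natDegree_comp_le ?_
    calc (q.map (Int.castRingHom ℚ)).natDegree * lin.natDegree
        ≤ (q.map (Int.castRingHom ℚ)).natDegree * 1 := Nat.mul_le_mul_left _ h1
      _ ≤ q.natDegree := by rw [mul_one]; exact natDegree_map_le
  have hHdeg : (Gp.eval₂ φQ Q).natDegree ≤ D' := by
    have h1 := natDegree_eval₂_le Gp D hD φQ hφdeg Q hQD
    rw [← hd, ← hD'] at h1
    exact h1
  have hHS : ∀ s ∈ S, (Gp.eval₂ φQ Q).eval ((s : ℕ) : ℚ) = 0 := by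
    intro s hs
    obtain ⟨-, hsZ, -⟩ := hSmem s hs
    have h1 : (evalRingHom ((s : ℕ) : ℚ)).comp φQ
        = (Int.castRingHom ℚ).comp (evalRingHom (u0 + (p : ℤ) ^ k * (s : ℤ))) := by
      refine ringHom_ext_int ?_
      rw [hφQ, hlin]
      simp
    rw [← coe_evalRingHom, hom_eval₂, h1, coe_evalRingHom, hQS s hs,
      ← eq_intCast (Int.castRingHom ℚ) (y s), ← hom_eval₂, hy s hsZ, map_zero]
  have hH0 : Gp.eval₂ φQ Q = 0 := by
    refine eq_zero_of_natDegree_lt_card_of_eval_eq_zero' _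
      (S.image (fun s : ℕ => (s : ℚ))) ?_ ?_
    · intro x hx
      obtain ⟨s, hs, rfl⟩ := Finset.mem_image.1 hx
      exact hHS s hs
    · rw [Finset.card_image_of_injective _ Nat.cast_injective]
      exact lt_of_le_of_lt hHdeg hab
  apply hroot
  refine ⟨Q.comp (C (1 / (p : ℚ) ^ k) * (X - C (u0 : ℚ))), ?_⟩
  have h2 : (compRingHom (C (1 / (p : ℚ) ^ k) * (X - C (u0 : ℚ)))).comp φQ
      = mapRingHom (Int.castRingHom ℚ) := by
    refine ringHom_ext_int ?_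
    rw [hφQ, hlin]
    simp only [RingHom.coe_comp, Function.comp_apply, coe_mapRingHom, map_X, coe_compRingHom,
      X_comp, add_comp, C_comp, mul_comp]
    rw [← mul_assoc, ← C_mul, mul_one_div_cancel hpkQ, C_1, one_mul]
    ring
  have h3 := congrArg (compRingHom (C (1 / (p : ℚ) ^ k) * (X - C (u0 : ℚ)))) hH0
  rw [hom_eval₂, h2, map_zero] at h3
  exact h3

/-- The polynomial `y ^ d + ∑ g_j(u) y ^ j`. -/
noncomputable def polyOf (d : ℕ) (g : Fin d → ℤ[X]) : ℤ[X][X] :=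
  X ^ d + ∑ j : Fin d, C (g j) * X ^ (j : ℕ)

theorem polyOf_monic (d : ℕ) (g : Fin d → ℤ[X]) : (polyOf d g).Monic :=
  monic_X_pow_add (degree_sum_fin_lt g)

theorem polyOf_eval₂ {R : Type*} [CommRing R] (d : ℕ) (g : Fin d → ℤ[X]) (φ : ℤ[X] →+* R)
    (y : R) : (polyOf d g).eval₂ φ y = y ^ d + ∑ j : Fin d, φ (g j) * y ^ (j : ℕ) := by
  simp [polyOf, eval₂_add, eval₂_finsetSum]

theorem polyOf_derivative_eval₂ {R : Type*} [CommRing R] (d : ℕ) (g : Fin d → ℤ[X])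
    (φ : ℤ[X] →+* R) (y : R) :
    (derivative (polyOf d g)).eval₂ φ y
      = (d : R) * y ^ (d - 1) + ∑ j : Fin d, φ (g j) * ((j : ℕ) : R) * y ^ ((j : ℕ) - 1) := by
  simp [polyOf, eval₂_add, eval₂_finsetSum, derivative_X_pow, eval₂_mul, mul_assoc]

/-- **The p-adic determinant method for roots**, coefficient form. -/
theorem hitRoot (d : ℕ) (g : Fin d → ℤ[X])
    (hroot : ¬ ∃ Y : ℚ[X],
      Y ^ d + ∑ j : Fin d, (g j).map (Int.castRingHom ℚ) * Y ^ (j : ℕ) = 0)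
    (p : ℕ) [Fact p.Prime] (u0 : ℤ)
    (hsimple : ∀ a : ZMod p,
      a ^ d + ∑ j : Fin d, (((g j).eval u0 : ℤ) : ZMod p) * a ^ (j : ℕ) = 0 →
      (d : ZMod p) * a ^ (d - 1)
        + ∑ j : Fin d, (((g j).eval u0 : ℤ) : ZMod p) * ((j : ℕ) : ZMod p) * a ^ ((j : ℕ) - 1) ≠ 0)
    (e : ℕ) :
    ∀ k0 : ℕ, ∃ k, k0 ≤ k ∧ ∀ Z : Finset ℕ, Z.card ≤ e → ∃ s : ℕ, s ∉ Z ∧ ∀ y : ℤ,
      y ^ d + ∑ j : Fin d, (g j).eval (u0 + (p : ℤ) ^ k * (s : ℤ)) * y ^ (j : ℕ) ≠ 0 := by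
  intro k0
  obtain ⟨k, hk, h⟩ := hitRoot_monic (polyOf d g) (polyOf_monic d g)
    (fun ⟨Y, hY⟩ => hroot ⟨Y, by rw [polyOf_eval₂] at hY; simpa using hY⟩) p u0
    (fun a ha => by
      rw [polyOf_eval₂] at ha
      rw [polyOf_derivative_eval₂]
      simpa using hsimple a (by simpa using ha)) e k0
  refine ⟨k, hk, fun Z hZ => ?_⟩
  obtain ⟨s, hs, hy⟩ := h Z hZ
  refine ⟨s, hs, fun y => ?_⟩
  have h1 := hy y
  rw [polyOf_eval₂] at h1
  simpa using h1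

end Fermat.Agent.S52.T3.HitRoot
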