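import Fermat.Agent.S52.T3.GenericSeam
import Fermat.Agent.S52.T3.Apply.Core
import Fermat.Agent.S52.T3.Apply.Poly

/-!
# PROJECT W (S52), T3: `Mod3Seam` from `GenericSeam`

`mod3Seam : GenericSeam → Seam.Mod3Seam`: the p-adic determinant method for roots
(`HitRoot.hitRoot_monic`, through `Apply.Core.exists_fibre_of_poly`) applied to the quartic
`Poly.Gp (hOf W) (kOf W) M` of the family through `W` along `t = M u` (helper10's `Apply/Poly`),
with (H2) from helper3's `Apply/Simple` and (H1) from `GenericSeam` by the reparametrisation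
`u ↦ u / M`.
-/

namespace Fermat.Agent.S52.T3.Apply

open Polynomial
open Fermat.Agent.S52.Seam
open Fermat.Agent.S52.KleinFamily

/-- **(T3)** `Mod3Seam` from the generic statement (H1). -/
theorem mod3Seam (hgen : GenericSeam) : Mod3Seam := by
  intro W hΔ hss M hM
  have hdisc : hOf W ^ 3 + kOf W ^ 2 ≠ 0 := by
    intro h0
    apply hΔ
    have h1 : -(729 * 1728) * W.Δ = 0 := by
      rw [← kOf_sq_add_hOf_cube W]; linarith
    exact (mul_eq_zero.1 h1).resolve_left (by norm_num)
  refine exists_fibre_of_poly (hOf W) (kOf W) M hdisc (Poly.Gp (hOf W) (kOf W) M)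
    (Poly.Gp_monic _ _ _) ?_ ?_ ?_ ?_
  · intro hY
    obtain ⟨Y, hY1⟩ := Poly.exists_root_one_of_root _ _ M hM hY
    rw [Poly.eval2_Gp_rat] at hY1
    apply hgen W hΔ hss
    refine ⟨Y, ?_⟩
    simpa using hY1
  · intro u y
    rw [Poly.eval2_Gp_int]
    rfl
  · intro p _ a
    rw [Poly.eval2_Gp_zmod_zero]
    rfl
  · intro p _ a
    rw [Poly.eval2_derivative_Gp_zmod_zero]
    rfl

end Fermat.Agent.S52.T3.Apply
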