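import Fermat.Agent.S51.ThreeFive

/-!
# PROJECT W (S52), block T3: the exit seam

If the monic integral quartic `y⁴ + 18 A y² + 108 B y - 27 A²` attached to the short model
`y² = x³ + A x + B` of `W'` (`A = 3 h`, `B = 2 k`, `h = -9 c₄(W')`, `k = -27 c₆(W')`) has no
integer root, then the mod-3 representation of `W'` is irreducible.

Reason: a Galois-stable line in the 3-torsion gives a rational root `x` of the 3-division
polynomial `3x⁴ + 6ax² + 12bx - a²` of the reduced short model (`a = -c₄/48`, `b = -c₆/864`;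
`Fermat.Agent.S51.ThreeFive.three`, on main); `y = 108 x` is then a rational root of the monic
integral quartic above, hence an integer.

The statement is written with every abbreviation expanded, so that it is definitionally the
literal `ExitSeam` of the tree of record (`hOf W := -9 * W.c₄`, `kOf W := -27 * W.c₆`,
`quartic A B y := y^4 + 18*A*y^2 + 108*B*y - 27*A^2`).
-/

set_option autoImplicit false

namespace Fermat.Agent.S52.T3.Exit

open Polynomial

/-- The monic integral quartic `X⁴ + 18 A X² + 108 B X - 27 A²`. -/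
noncomputable def quarticPoly (A B : ℤ) : ℤ[X] :=
  X ^ 4 + C (18 * A) * X ^ 2 + C (108 * B) * X - C (27 * A ^ 2)

theorem quarticPoly_monic (A B : ℤ) : (quarticPoly A B).Monic := by
  unfold quarticPoly
  have h1 : (X ^ 4 + C (18 * A) * X ^ 2 + C (108 * B) * X - C (27 * A ^ 2) : ℤ[X]) =
      X ^ 4 - (-(C (18 * A) * X ^ 2) + -(C (108 * B) * X) + C (27 * A ^ 2)) := by ring
  rw [h1]
  apply Polynomial.monic_X_pow_sub
  refine lt_of_le_of_lt (Polynomial.degree_add_le _ _) ?_
  refine max_lt (lt_of_le_of_lt (Polynomial.degree_add_le _ _) (max_lt ?_ ?_)) ?_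
  · rw [Polynomial.degree_neg]
    exact lt_of_le_of_lt (Polynomial.degree_C_mul_X_pow_le 2 _) (by norm_num)
  · rw [Polynomial.degree_neg]
    exact lt_of_le_of_lt (Polynomial.degree_C_mul_X_le _) (by norm_num)
  · exact lt_of_le_of_lt Polynomial.degree_C_le (by norm_num)

theorem aeval_quarticPoly (A B : ℤ) (z : ℚ) :
    aeval z (quarticPoly A B) = z ^ 4 + 18 * A * z ^ 2 + 108 * B * z - 27 * (A : ℚ) ^ 2 := by
  simp only [quarticPoly, map_sub, map_add, map_mul, map_pow, aeval_X, eq_intCast, map_ofNat,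
    map_intCast]

/-- A rational root of the 3-division polynomial of the reduced short model gives an integer root
of the quartic of the seam. -/
theorem exists_int_root (c4 c6 : ℤ) (x : ℚ)
    (hx : 3 * x ^ 4 + 6 * (-(c4 : ℚ) / 48) * x ^ 2 + 12 * (-(c6 : ℚ) / 864) * x
      - (-(c4 : ℚ) / 48) ^ 2 = 0) :
    ∃ y : ℤ, y ^ 4 + 18 * (3 * (-9 * c4)) * y ^ 2 + 108 * (2 * (-27 * c6)) * y
      - 27 * (3 * (-9 * c4)) ^ 2 = 0 := by
  have hz : aeval (108 * x) (quarticPoly (3 * (-9 * c4)) (2 * (-27 * c6))) = 0 := by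
    rw [aeval_quarticPoly]
    push_cast
    linear_combination (45349632 : ℚ) * hx
  obtain ⟨n, hn⟩ := isInteger_of_is_root_of_monic (quarticPoly_monic _ _) hz
  refine ⟨n, ?_⟩
  rw [aeval_quarticPoly, ← hn] at hz
  have : ((n ^ 4 + 18 * (3 * (-9 * c4)) * n ^ 2 + 108 * (2 * (-27 * c6)) * n
      - 27 * (3 * (-9 * c4)) ^ 2 : ℤ) : ℚ) = 0 := by
    push_cast
    simpa using hz
  exact_mod_cast this

/-- **The exit seam of (T3)**, in the literal of the tree of record with `hOf`, `kOf`, `quartic`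
expanded. -/
theorem exit (W' : WeierstrassCurve ℤ) (hΔ : W'.Δ ≠ 0)
    (h : ∀ y : ℤ, y ^ 4 + 18 * (3 * (-9 * W'.c₄)) * y ^ 2 + 108 * (2 * (-27 * W'.c₆)) * y
      - 27 * (3 * (-9 * W'.c₄)) ^ 2 ≠ 0) : W'.ModRepIsIrreducible 3 := by
  by_contra hirr
  obtain ⟨x, hx⟩ := Fermat.Agent.S51.ThreeFive.three W' hΔ hirr
  unfold Fermat.Agent.S51.redA Fermat.Agent.S51.redB at hx
  obtain ⟨y, hy⟩ := exists_int_root W'.c₄ W'.c₆ x hx
  exact h y hy

end Fermat.Agent.S52.T3.Exit
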