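import Fermat.Agent.S52.Seam

/-!
# PROJECT W (S52), T3: the seam (H1) between `T3/Generic` and `T3/Apply`

`GenericSeam`: for a semistable integral model `W` with `Δ ≠ 0`, the quartic
`y⁴ + 18 A y² + 108 B y - 27 A²` of the family through `W` (`A = 3 Hf(h, k, t)`,
`B = 2 Tf(h, k, t)`, `h = hOf W`, `k = kOf W`, helper21's `KleinFamily` over the ring `ℚ[t]`, the
parameter `t` being the variable `X`) has no root in `ℚ[t]`.
-/

namespace Fermat.Agent.S52.T3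

open Polynomial
open Fermat.Agent.S52.Seam
open Fermat.Agent.S52.KleinFamily

/-- **(H1)** the quartic of the family through `W` has no root in `ℚ[t]`. -/
def GenericSeam : Prop :=
  ∀ W : WeierstrassCurve ℤ, W.Δ ≠ 0 → W.IsSemistableModel →
    ¬ ∃ Y : ℚ[X],
      Y ^ 4 + 18 * (3 * Hf (C ((hOf W : ℤ) : ℚ)) (C ((kOf W : ℤ) : ℚ)) X) * Y ^ 2
        + 108 * (2 * Tf (C ((hOf W : ℤ) : ℚ)) (C ((kOf W : ℤ) : ℚ)) X) * Y
        - 27 * (3 * Hf (C ((hOf W : ℤ) : ℚ)) (C ((kOf W : ℤ) : ℚ)) X) ^ 2 = 0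

end Fermat.Agent.S52.T3
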